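import Fermat.Agent.S52.Seams
import Fermat.Agent.S52.SS.Main
import Fermat.Agent.S52.SS.Iso
import Fermat.Agent.S52.J.Main

/-!
# S52, second level: the seam [FAMILY] from [GEOM] + [RED] (+ the landed [SS], [J])

* `s52_Red_stmt`  [RED]  a change of variables over `ℚ` induces an isomorphism of the Galois
  modules `E[n]`; such isomorphisms transport irreducibility.
* `s52_Geom_stmt` [GEOM] the geometric family: `C₄(s), C₆(s) ∈ ℚ[s]`, coprime, through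
  `(c₄, c₆)` at `s = 0`, with constant mod-5 representation and generically no `3`-isogeny.
* `s52_family_of : s52_Geom_stmt → s52_Red_stmt → s52_Family_stmt` (proved here).
-/

set_option autoImplicit false

namespace Fermat.Agent.S52

open WeierstrassCurve Polynomial
open scoped WeierstrassCurve.Affine

/-! ### `s52_TorsIso` is an equivalence relation -/

theorem s52_TorsIso.refl (E : WeierstrassCurve.Affine ℚ) (n : ℕ) : s52_TorsIso E E n :=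
  ⟨AddEquiv.refl _, fun _ _ => rfl⟩

theorem s52_TorsIso.symm {E E' : WeierstrassCurve.Affine ℚ} {n : ℕ} (h : s52_TorsIso E E' n) :
    s52_TorsIso E' E n := by
  obtain ⟨φ, hφ⟩ := h
  refine ⟨φ.symm, fun σ P => ?_⟩
  apply φ.injective
  rw [hφ, AddEquiv.apply_symm_apply, AddEquiv.apply_symm_apply]

theorem s52_TorsIso.trans {E E' E'' : WeierstrassCurve.Affine ℚ} {n : ℕ}
    (h : s52_TorsIso E E' n) (h' : s52_TorsIso E' E'' n) : s52_TorsIso E E'' n := by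
  obtain ⟨φ, hφ⟩ := h
  obtain ⟨ψ, hψ⟩ := h'
  exact ⟨φ.trans ψ, fun σ P => by simp only [AddEquiv.trans_apply, hφ, hψ]⟩

/-! ### the reference models -/

/-- `y² = x³ + a x + b` over `ℚ` -/
def s52_short (a b : ℚ) : WeierstrassCurve.Affine ℚ := ⟨0, 0, 0, a, b⟩

/-- the short model with invariants exactly `(c₄, c₆) = (c4, c6)`:
`y² = x³ - (c4/48) x - c6/864` -/
def s52_curve (c4 c6 : ℚ) : WeierstrassCurve.Affine ℚ := s52_short (-c4 / 48) (-c6 / 864)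

theorem s52_curve_c₄ (c4 c6 : ℚ) : (s52_curve c4 c6).c₄ = c4 := by
  simp only [s52_curve, s52_short, WeierstrassCurve.c₄, WeierstrassCurve.b₂, WeierstrassCurve.b₄]
  ring

theorem s52_curve_c₆ (c4 c6 : ℚ) : (s52_curve c4 c6).c₆ = c6 := by
  simp only [s52_curve, s52_short, WeierstrassCurve.c₆, WeierstrassCurve.b₂, WeierstrassCurve.b₄,
    WeierstrassCurve.b₆]
  ring

/-! ### the seams -/

/-- **[RED]** -/
def s52_Red_stmt : Prop :=
  (∀ (E E' : WeierstrassCurve.Affine ℚ), (∃ C : VariableChange ℚ, C • E = E') →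
    ∀ n : ℕ, s52_TorsIso E E' n) ∧
  (∀ (E E' : WeierstrassCurve.Affine ℚ) (n : ℕ), s52_TorsIso E E' n →
    Affine.Point.GaloisRepIsIrreducible (K := s52_Qb) ℚ E n →
    Affine.Point.GaloisRepIsIrreducible (K := s52_Qb) ℚ E' n)

/-- **[GEOM]** -/
def s52_Geom_stmt : Prop :=
  ∀ (c4 c6 : ℚ), c4 ≠ 0 → c6 ≠ 0 → c4 ^ 3 - c6 ^ 2 ≠ 0 →
    Affine.Point.GaloisRepIsIrreducible (K := s52_Qb) ℚ (s52_curve c4 c6) 5 →
    ∃ C4 C6 : Polynomial ℚ, C4.coeff 0 = c4 ∧ C6.coeff 0 = c6 ∧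
      IsCoprime C4 (C4 ^ 3 - C6 ^ 2) ∧ s52_Rootless (s52_quartic C4 C6) ∧
      ∃ B : Finset ℚ, ∀ c : ℚ, c ∉ B → (C4.eval c) ^ 3 - (C6.eval c) ^ 2 ≠ 0 →
        s52_TorsIso (s52_curve c4 c6) (s52_curve (C4.eval c) (C6.eval c)) 5

/-- two curves over `ℚ` with the same `(c₄, c₆)` have isomorphic torsion modules -/
theorem s52_torsIso_of_c (hR : s52_Red_stmt) (E E' : WeierstrassCurve.Affine ℚ)
    (h4 : E.c₄ = E'.c₄) (h6 : E.c₆ = E'.c₆) (n : ℕ) : s52_TorsIso E E' n := by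
  obtain ⟨C, -, hC⟩ := s52s_iso (F := ℚ) (by norm_num) (by norm_num) E E' h4 h6
  exact hR.1 E E' ⟨C, hC⟩ n

/-- **[FAMILY] from [GEOM] and [RED]** (with the landed [SS] and [J]). -/
theorem s52_family_of (hG : s52_Geom_stmt) (hR : s52_Red_stmt) : s52_Family_stmt := by
  intro W hΔ hW h5
  have hc4 : ((W.c₄ : ℤ) : ℚ) ≠ 0 := by exact_mod_cast s52j_c4_ne_zero W hW
  have hc6 : ((W.c₆ : ℤ) : ℚ) ≠ 0 := by exact_mod_cast s52j_c6_ne_zero W hW
  have hrel : (1728 : ℚ) * (W.Δ : ℚ) = (W.c₄ : ℚ) ^ 3 - (W.c₆ : ℚ) ^ 2 := by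
    have := W.c_relation
    exact_mod_cast this
  have hdisc : ((W.c₄ : ℤ) : ℚ) ^ 3 - ((W.c₆ : ℤ) : ℚ) ^ 2 ≠ 0 := by
    rw [← hrel]
    have : ((W.Δ : ℤ) : ℚ) ≠ 0 := by exact_mod_cast hΔ
    positivity
  -- the curve over `ℚ` and the reference model
  have e4 : (W.map (Int.castRingHom ℚ)).c₄ = (W.c₄ : ℚ) := by
    rw [WeierstrassCurve.map_c₄]; rfl
  have e6 : (W.map (Int.castRingHom ℚ)).c₆ = (W.c₆ : ℚ) := by
    rw [WeierstrassCurve.map_c₆]; rfl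
  have iso0 : ∀ n, s52_TorsIso (W.map (Int.castRingHom ℚ)) (s52_curve (W.c₄ : ℚ) (W.c₆ : ℚ)) n :=
    fun n => s52_torsIso_of_c hR _ _ (by rw [e4, s52_curve_c₄]) (by rw [e6, s52_curve_c₆]) n
  have hirr : Affine.Point.GaloisRepIsIrreducible (K := s52_Qb) ℚ
      (s52_curve (W.c₄ : ℚ) (W.c₆ : ℚ)) 5 := hR.2 _ _ 5 (iso0 5) h5
  obtain ⟨C4, C6, h4, h6, hcop, hroot, B, hB⟩ := hG _ _ hc4 hc6 hdisc hirr
  obtain ⟨M, hM, -, -, -, k, hfam⟩ := s52s_main W hW hΔ C4 C6 h4 h6 hcop 1 one_ne_zero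
  have hMk : M ^ k ≠ 0 := pow_ne_zero k hM
  -- the exceptional parameters
  have hinj : Function.Injective (fun t : ℤ => (((M ^ k * t : ℤ)) : ℚ)) := by
    intro t t' h
    have h' : M ^ k * t = M ^ k * t' := by
      have h2 : (((M ^ k * t : ℤ)) : ℚ) = (((M ^ k * t' : ℤ)) : ℚ) := h
      exact_mod_cast h2
    exact mul_left_cancel₀ hMk h'
  refine ⟨C4, C6, M ^ k, B.preimage _ hinj.injOn, hMk, hroot, fun t ht => ?_⟩
  obtain ⟨W', h4', h6', hΔ', hW', -⟩ := hfam t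
  refine ⟨W', h4', h6', hΔ', hW', ?_⟩
  have htB : (((M ^ k * t : ℤ)) : ℚ) ∉ B := by
    intro hmem
    exact ht (Finset.mem_preimage.2 hmem)
  have hrel' : (1728 : ℚ) * (W'.Δ : ℚ) = (W'.c₄ : ℚ) ^ 3 - (W'.c₆ : ℚ) ^ 2 := by
    have := W'.c_relation
    exact_mod_cast this
  have hdisc' : (C4.eval (((M ^ k * t : ℤ)) : ℚ)) ^ 3 - (C6.eval (((M ^ k * t : ℤ)) : ℚ)) ^ 2 ≠ 0 := by
    rw [← h4', ← h6', ← hrel']
    have : ((W'.Δ : ℤ) : ℚ) ≠ 0 := by exact_mod_cast hΔ'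
    positivity
  have iso1 := hB _ htB hdisc'
  have e4' : (W'.map (Int.castRingHom ℚ)).c₄ = (W'.c₄ : ℚ) := by
    rw [WeierstrassCurve.map_c₄]; rfl
  have e6' : (W'.map (Int.castRingHom ℚ)).c₆ = (W'.c₆ : ℚ) := by
    rw [WeierstrassCurve.map_c₆]; rfl
  have iso2 : s52_TorsIso (s52_curve (C4.eval (((M ^ k * t : ℤ)) : ℚ))
      (C6.eval (((M ^ k * t : ℤ)) : ℚ))) (W'.map (Int.castRingHom ℚ)) 5 :=
    s52_torsIso_of_c hR _ _ (by rw [e4', s52_curve_c₄, h4']) (by rw [e6', s52_curve_c₆, h6']) 5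
  exact ((iso0 5).trans iso1).trans iso2

end Fermat.Agent.S52
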